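import Mathlib

/-!
# S34 / Sep.Gamma — linear-algebra core

A finite family `β` in a field `κ ⊇ F` whose `F`-span is closed under multiplication (structure
constants with a common denominator `d`), which is "fraction-free" linearly independent, and whose
trace matrix (computed from the structure constants) is invertible, spans a finite SEPARABLE field
extension of `F`.  Hence every element of the span is separable over `F`.

Everything is stated fraction-free over a ring `A` mapping to `F` (`φ : A →+* F`, every element of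
`F` being a quotient of elements of `φ A`), so that the lemma applies verbatim to reductions of
integral bases.
-/

set_option autoImplicit false

namespace Fermat.Agent.S34.Sep.ResidueLA

open Matrix

variable {A F κ : Type*} [CommRing A] [Field F] [Field κ] [Algebra F κ] {n : ℕ}

/-- Fraction-free independence implies `F`-linear independence. -/
theorem linearIndependent_of_fractionFree (φ : A →+* F)
    (hfrac : ∀ f : F, ∃ a s : A, φ s ≠ 0 ∧ f * φ s = φ a) (β : Fin n → κ)
    (hind : ∀ a : Fin n → A, ∑ i, algebraMap F κ (φ (a i)) * β i = 0 → ∀ i, φ (a i) = 0) :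
    LinearIndependent F β := by
  classical
  rw [Fintype.linearIndependent_iff]
  intro g hg i
  choose num den hden hnd using hfrac
  set s : A := ∏ j, den (g j) with hs
  have hs0 : φ s ≠ 0 := by
    rw [hs, map_prod]
    exact Finset.prod_ne_zero_iff.2 fun j _ => hden _
  have key : ∀ i, g i * φ s = φ (num (g i) * ∏ j ∈ Finset.univ.erase i, den (g j)) := by
    intro i
    rw [map_mul, ← hnd, hs, map_prod, map_prod, mul_assoc,
      Finset.mul_prod_erase Finset.univ (fun j => φ (den (g j))) (Finset.mem_univ i)]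
  have h0 : ∑ i, algebraMap F κ (φ (num (g i) * ∏ j ∈ Finset.univ.erase i, den (g j))) * β i
      = 0 := by
    have h1 : ∑ i, algebraMap F κ (g i * φ s) * β i = algebraMap F κ (φ s) * ∑ i, g i • β i := by
      rw [Finset.mul_sum]
      refine Finset.sum_congr rfl fun i _ => ?_
      rw [Algebra.smul_def, map_mul]
      ring
    rw [hg, mul_zero] at h1
    rw [← h1]
    exact Finset.sum_congr rfl fun i _ => by rw [key]
  have h2 := hind _ h0 i
  rw [← key] at h2
  exact (mul_eq_zero.1 h2).resolve_right hs0

/-- **Core.**  See the module docstring. -/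
theorem isSeparable_of_structure (φ : A →+* F)
    (hfrac : ∀ f : F, ∃ a s : A, φ s ≠ 0 ∧ f * φ s = φ a)
    (β : Fin n → κ) (d : A) (hd : φ d ≠ 0)
    (hind : ∀ a : Fin n → A, ∑ i, algebraMap F κ (φ (a i)) * β i = 0 → ∀ i, φ (a i) = 0)
    (e : Fin n → A) (hone : algebraMap F κ (φ d) = ∑ i, algebraMap F κ (φ (e i)) * β i)
    (a : Fin n → Fin n → Fin n → A)
    (hmul : ∀ k j, algebraMap F κ (φ d) * (β k * β j) =
      ∑ i, algebraMap F κ (φ (a k i j)) * β i)
    (hdet : (Matrix.of fun k l => ∑ i, ∑ j, φ (a k i j) * φ (a l j i)).det ≠ 0)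
    (x : κ) (c : Fin n → A)
    (hx : algebraMap F κ (φ d) * x = ∑ i, algebraMap F κ (φ (c i)) * β i) :
    IsSeparable F x := by
  classical
  have hli : LinearIndependent F β := linearIndependent_of_fractionFree φ hfrac β hind
  set V : Submodule F κ := Submodule.span F (Set.range β) with hV
  have hβV : ∀ i, β i ∈ V := fun i => Submodule.subset_span ⟨i, rfl⟩
  have hdκ : algebraMap F κ (φ d) ≠ 0 := (map_ne_zero _).2 hd
  -- coordinates with denominator `d`
  have hcoord : ∀ (y : κ) (c : Fin n → A),
      algebraMap F κ (φ d) * y = ∑ i, algebraMap F κ (φ (c i)) * β i →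
      y = ∑ i, ((φ d)⁻¹ * φ (c i)) • β i := by
    intro y c hy
    have h1 : ∑ i, ((φ d)⁻¹ * φ (c i)) • β i =
        (algebraMap F κ (φ d))⁻¹ * ∑ i, algebraMap F κ (φ (c i)) * β i := by
      rw [Finset.mul_sum]
      refine Finset.sum_congr rfl fun i _ => ?_
      rw [Algebra.smul_def, map_mul, map_inv₀, mul_assoc]
    rw [h1, ← hy, ← mul_assoc, inv_mul_cancel₀ hdκ, one_mul]
  have hmemV : ∀ (y : κ) (c : Fin n → A),
      algebraMap F κ (φ d) * y = ∑ i, algebraMap F κ (φ (c i)) * β i → y ∈ V := by
    intro y c hy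
    rw [hcoord y c hy]
    exact Submodule.sum_mem _ fun i _ => Submodule.smul_mem _ _ (hβV i)
  have h1V : (1 : κ) ∈ V := hmemV 1 e (by rw [mul_one]; exact hone)
  have hmulV : ∀ y z, y ∈ V → z ∈ V → y * z ∈ V := by
    intro y z hy hz
    have h1 : y * z ∈ V * V := Submodule.mul_mem_mul hy hz
    rw [hV, Submodule.span_mul_span] at h1
    refine (Submodule.span_le.2 ?_) h1
    rintro _ ⟨u, ⟨k, rfl⟩, v, ⟨j, rfl⟩, rfl⟩
    exact hmemV _ (fun i => a k i j) (hmul k j)
  -- the subalgebra and the field
  let S : Subalgebra F κ := V.toSubalgebra h1V hmulV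
  have hSV : ∀ y, y ∈ S ↔ y ∈ V := fun y => Iff.rfl
  have hfinV : Module.Finite F V := FiniteDimensional.span_of_finite F (Set.finite_range β)
  have hfinS : Module.Finite F S := hfinV
  have hSfield : IsField S := by
    have : Algebra.IsIntegral F S := Algebra.IsIntegral.of_finite F S
    exact isField_of_isIntegral_of_isField' (Field.toIsField F)
  let F' : IntermediateField F κ := S.toIntermediateField' hSfield
  have hF'V : ∀ y, y ∈ F' ↔ y ∈ V := fun y => Iff.rfl
  let bv : Fin n → F' := fun i => ⟨β i, (hF'V _).2 (hβV i)⟩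
  have hli' : LinearIndependent F bv := by
    refine LinearIndependent.of_comp F'.val.toLinearMap ?_
    exact hli
  have hsp : ⊤ ≤ Submodule.span F (Set.range bv) := by
    rintro ⟨y, hy⟩ -
    obtain ⟨g, rfl⟩ := (Submodule.mem_span_range_iff_exists_fun F).1 ((hF'V y).1 hy)
    rw [Submodule.mem_span_range_iff_exists_fun]
    refine ⟨g, ?_⟩
    apply Subtype.ext
    simp [bv]
  let Bs : Module.Basis (Fin n) F F' := Module.Basis.mk hli' hsp
  have hBs : ∀ i, Bs i = bv i := fun i => by simp [Bs]
  -- multiplication table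
  let M : Fin n → Matrix (Fin n) (Fin n) F := fun k => Matrix.of fun i j => (φ d)⁻¹ * φ (a k i j)
  have hmulF' : ∀ k j, bv k * bv j = ∑ i, M k i j • Bs i := by
    intro k j
    apply Subtype.ext
    have h1 := hcoord _ (fun i => a k i j) (hmul k j)
    simp only [hBs]
    rw [show ((bv k * bv j : F') : κ) = β k * β j from rfl, h1]
    simp [bv, M]
  have hleft : ∀ k, Algebra.leftMulMatrix Bs (bv k) = M k := by
    intro k
    ext i j
    rw [Algebra.leftMulMatrix_eq_repr_mul, hBs j, hmulF' k j, Module.Basis.repr_sum_self]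
  have htrace : ∀ k l, Algebra.trace F F' (bv k * bv l) =
      ((φ d)⁻¹) ^ 2 * ∑ i, ∑ j, φ (a k i j) * φ (a l j i) := by
    intro k l
    rw [Algebra.trace_eq_matrix_trace Bs, map_mul, hleft, hleft, Matrix.trace, Finset.mul_sum]
    refine Finset.sum_congr rfl fun i _ => ?_
    rw [Matrix.diag_apply, Matrix.mul_apply, Finset.mul_sum]
    refine Finset.sum_congr rfl fun j _ => ?_
    simp only [M, Matrix.of_apply]
    ring
  have hsep : Algebra.IsSeparable F F' := by
    by_contra H
    have h0 := Algebra.trace_eq_zero_of_not_isSeparable H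
    have hn : Nonempty (Fin n) := by
      by_contra hne
      rw [not_nonempty_iff] at hne
      apply hdκ
      rw [hone]
      exact Finset.sum_of_isEmpty _
    apply hdet
    have hz : (Matrix.of fun k l => ∑ i, ∑ j, φ (a k i j) * φ (a l j i)) = 0 := by
      ext k l
      have h1 := htrace k l
      rw [h0, LinearMap.zero_apply] at h1
      have h2 : ((φ d)⁻¹) ^ 2 ≠ 0 := pow_ne_zero _ (inv_ne_zero hd)
      simpa using (mul_eq_zero.1 h1.symm).resolve_left h2
    rw [hz, Matrix.det_zero]
  have hxV : x ∈ V := hmemV x c hx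
  have h3 := Algebra.IsSeparable.isSeparable F (⟨x, (hF'V x).2 hxV⟩ : F')
  rw [IsSeparable] at h3 ⊢
  rwa [IntermediateField.minpoly_eq] at h3

end Fermat.Agent.S34.Sep.ResidueLA
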