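import Mathlib
import Fermat.Agent.S34.Sep.ResidueLA

/-!
# S34 / Sep.Gamma — unit discriminant at a prime ⇒ separable residue extension

`A` an integrally closed domain with fraction field `K`, `L / K` a finite field extension,
`B = integralClosure A L`.  Let `b` be a family of `[L : K]` elements of `L`, integral over `A`,
whose trace discriminant is `d ∈ A`, and let `π` be a prime element of `A` not dividing `d`.
If `ρ : B →+* κ` is a ring homomorphism to a field with kernel `π B`, then every `ρ c` is
separable over the fraction field `F` of `ρ A` inside `κ`.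

* `exists_algebraMap_eq_trace` : traces of integral elements lie in `A`;
* `exists_coord` : Cramer, `d • x ∈ ⊕ A b_i` for `x` integral;
* `isSeparable_of_unramified` : the statement above (via `ResidueLA.isSeparable_of_structure`).
-/

set_option autoImplicit false

namespace Fermat.Agent.S34.Sep.ResidueCore

open Matrix

variable {A K L : Type*} [CommRing A] [IsDomain A] [IsIntegrallyClosed A] [Field K]
  [Algebra A K] [IsFractionRing A K] [Field L] [Algebra K L] [Algebra A L] [IsScalarTower A K L]
  [FiniteDimensional K L]

omit [IsDomain A] in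
/-- The trace of an integral element lies in `A`. -/
theorem exists_algebraMap_eq_trace {x : L} (hx : IsIntegral A x) :
    ∃ a : A, algebraMap A K a = Algebra.trace K L x :=
  IsIntegrallyClosed.isIntegral_iff.1 (Algebra.isIntegral_trace (R := A) (L := K) (F := L) hx)

omit [IsDomain A] in
/-- **Cramer.**  If the basis `bas` consists of integral elements and its trace discriminant is
`d ∈ A`, then `d` times the coordinates of an integral element lie in `A`. -/
theorem exists_coord {n : ℕ} (bas : Module.Basis (Fin n) K L) (hb : ∀ i, IsIntegral A (bas i))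
    (d : A) (hdet : (Algebra.traceMatrix K bas).det = algebraMap A K d) {x : L}
    (hx : IsIntegral A x) :
    ∃ a : Fin n → A, ∀ i, algebraMap A K (a i) = algebraMap A K d * bas.repr x i := by
  classical
  have hT : ∀ i j, ∃ a : A, algebraMap A K a = Algebra.trace K L (bas i * bas j) := fun i j =>
    exists_algebraMap_eq_trace ((hb i).mul (hb j))
  choose TA hTA using hT
  have hy : ∀ j, ∃ a : A, algebraMap A K a = Algebra.trace K L (x * bas j) := fun j =>
    exists_algebraMap_eq_trace (hx.mul (hb j))
  choose y hy using hy
  set T := Algebra.traceMatrix K bas with hTdef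
  set r : Fin n → K := fun i => bas.repr x i with hr
  have h1 : r ᵥ* T = fun j => algebraMap A K (y j) := by
    funext j
    rw [hy j]
    conv_rhs => rw [← bas.sum_repr x]
    rw [Finset.sum_mul, map_sum]
    simp only [Matrix.vecMul, dotProduct, hTdef, Algebra.traceMatrix_apply,
      Algebra.traceForm_apply]
    refine Finset.sum_congr rfl fun i _ => ?_
    rw [smul_mul_assoc, map_smul, smul_eq_mul]
  have h2 : T.det • r = (fun j => algebraMap A K (y j)) ᵥ* T.adjugate := by
    rw [← h1, Matrix.vecMul_vecMul, Matrix.mul_adjugate, Matrix.vecMul_smul, Matrix.vecMul_one]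
  have hTmap : T = (algebraMap A K).mapMatrix (Matrix.of TA) := by
    ext i j
    simp [hTdef, Algebra.traceMatrix_apply, Algebra.traceForm_apply, hTA]
  have hadj : T.adjugate = (algebraMap A K).mapMatrix ((Matrix.of TA).adjugate) := by
    rw [hTmap, RingHom.map_adjugate]
  refine ⟨fun i => (y ᵥ* (Matrix.of TA).adjugate) i, fun i => ?_⟩
  have h3 := congrFun h2 i
  rw [hdet] at h3
  simp only [Pi.smul_apply, smul_eq_mul] at h3
  rw [h3, hadj]
  simp [Matrix.vecMul, dotProduct, map_sum, map_mul]

variable {κ F : Type*} [Field κ] [Field F] [Algebra F κ]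

omit [IsDomain A] in
/-- **Unit discriminant at `π` ⇒ separable residue extension.** -/
theorem isSeparable_of_unramified' {n : ℕ} (hn : n = Module.finrank K L)
    (b : Fin n → L) (hb : ∀ i, IsIntegral A (b i))
    (d π : A) (hdet : (Algebra.traceMatrix K b).det = algebraMap A K d) (hπ : Prime π)
    (hπd : ¬ π ∣ d)
    (ρ : integralClosure A L →+* κ)
    (hρ : RingHom.ker ρ = Ideal.span {algebraMap A (integralClosure A L) π})
    (φ : A →+* F) (hφ : ∀ a, algebraMap F κ (φ a) = ρ (algebraMap A (integralClosure A L) a))
    (hfrac : ∀ f : F, ∃ a s : A, φ s ≠ 0 ∧ f * φ s = φ a)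
    (c : integralClosure A L) : IsSeparable F (ρ c) := by
  classical
  have hd0 : d ≠ 0 := fun h => hπd (h ▸ dvd_zero π)
  have hinjK : Function.Injective (algebraMap A K) := IsFractionRing.injective A K
  have hinjL : Function.Injective (algebraMap A L) := by
    rw [IsScalarTower.algebraMap_eq A K L]
    exact (algebraMap K L).injective.comp hinjK
  -- `b` is a basis
  have hdisc : Algebra.discr K b ≠ 0 := by
    rw [Algebra.discr_def, hdet]
    exact (map_ne_zero_iff _ hinjK).2 hd0
  have hnpos : 0 < n := hn ▸ Module.finrank_pos
  have hne : Nonempty (Fin n) := ⟨⟨0, hnpos⟩⟩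
  have hli : LinearIndependent K b := by
    by_contra h
    exact hdisc (Algebra.discr_zero_of_not_linearIndependent K h)
  let bas : Module.Basis (Fin n) K L :=
    basisOfLinearIndependentOfCardEqFinrank hli (by simp [hn])
  have hbas : ∀ i, bas i = b i := fun i => by simp [bas]
  have hbas' : (⇑bas : Fin n → L) = b := funext hbas
  have hb' : ∀ i, IsIntegral A (bas i) := fun i => by rw [hbas]; exact hb i
  have hdet' : (Algebra.traceMatrix K bas).det = algebraMap A K d := by rw [hbas']; exact hdet
  -- coordinates
  have hcoordK : ∀ x : integralClosure A L, ∃ a : Fin n → A,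
      ∀ i, algebraMap A K (a i) = algebraMap A K d * bas.repr (x : L) i := fun x =>
    exists_coord bas hb' d hdet' x.2
  choose cA hcAK using hcoordK
  have hcA : ∀ x : integralClosure A L,
      algebraMap A L d * (x : L) = ∑ i, algebraMap A L (cA x i) * b i := by
    intro x
    conv_lhs => rw [← bas.sum_repr (x : L)]
    rw [Finset.mul_sum]
    refine Finset.sum_congr rfl fun i _ => ?_
    rw [IsScalarTower.algebraMap_apply A K L (cA x i), hcAK x i, hbas, Algebra.smul_def,
      IsScalarTower.algebraMap_apply A K L d, map_mul, mul_assoc]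
  let bB : Fin n → integralClosure A L := fun i => ⟨b i, hb i⟩
  have hcB : ∀ x : integralClosure A L, algebraMap A (integralClosure A L) d * x =
      ∑ i, algebraMap A (integralClosure A L) (cA x i) * bB i := by
    intro x
    apply Subtype.ext
    have h1 := hcA x
    simpa [bB] using h1
  let β : Fin n → κ := fun i => ρ (bB i)
  have hρc : ∀ x : integralClosure A L,
      algebraMap F κ (φ d) * ρ x = ∑ i, algebraMap F κ (φ (cA x i)) * β i := by
    intro x
    have h1 := congrArg ρ (hcB x)
    simp only [map_mul, map_sum] at h1
    simpa [hφ, β] using h1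
  -- the kernel of `ρ` on `A`
  have hker : ∀ a : A, ρ (algebraMap A (integralClosure A L) a) = 0 → π ∣ a := by
    intro a ha
    have h1 : algebraMap A (integralClosure A L) a ∈ RingHom.ker ρ := ha
    rw [hρ, Ideal.mem_span_singleton] at h1
    obtain ⟨x, hx⟩ := h1
    have hxL : algebraMap A L a = algebraMap A L π * (x : L) := by
      have h2 := congrArg (fun z : integralClosure A L => (z : L)) hx
      simpa using h2
    have hπ0 : algebraMap A K π ≠ 0 := (map_ne_zero_iff _ hinjK).2 hπ.ne_zero
    have hπL : algebraMap A L π ≠ 0 := (map_ne_zero_iff _ hinjL).2 hπ.ne_zero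
    have hxK : (x : L) = algebraMap K L (algebraMap A K a / algebraMap A K π) := by
      rw [map_div₀, ← IsScalarTower.algebraMap_apply, ← IsScalarTower.algebraMap_apply, hxL,
        mul_div_cancel_left₀ _ hπL]
    have hint : IsIntegral A (algebraMap A K a / algebraMap A K π) := by
      have h3 := x.2
      rw [mem_integralClosure_iff, hxK] at h3
      exact (isIntegral_algebraMap_iff (algebraMap K L).injective).1 h3
    obtain ⟨a', ha'⟩ := IsIntegrallyClosed.isIntegral_iff.1 hint
    refine ⟨a', hinjK ?_⟩
    rw [map_mul, ha', mul_div_cancel₀ _ hπ0]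
  have hπker : ρ (algebraMap A (integralClosure A L) π) = 0 := by
    have h1 : algebraMap A (integralClosure A L) π ∈ RingHom.ker ρ := by
      rw [hρ]
      exact Ideal.mem_span_singleton_self _
    exact h1
  have hφd : φ d ≠ 0 := by
    intro h
    apply hπd
    apply hker
    rw [← hφ, h, map_zero]
  -- comparison of coefficients
  have hcoef : ∀ (u v : Fin n → A),
      ∑ i, algebraMap A L (u i) * b i = ∑ i, algebraMap A L (v i) * b i → ∀ i, u i = v i := by
    intro u v huv i
    have h3 : ∑ i, (algebraMap A K (u i) - algebraMap A K (v i)) • b i = 0 := by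
      have h3' : ∀ i, (algebraMap A K (u i) - algebraMap A K (v i)) • b i =
          algebraMap A L (u i) * b i - algebraMap A L (v i) * b i := fun i => by
        rw [sub_smul, Algebra.smul_def, Algebra.smul_def, ← IsScalarTower.algebraMap_apply,
          ← IsScalarTower.algebraMap_apply]
      rw [Finset.sum_congr rfl (fun i _ => h3' i), Finset.sum_sub_distrib, huv, sub_self]
    have h4 := (Fintype.linearIndependent_iff.1 hli) _ h3 i
    exact hinjK (sub_eq_zero.1 h4)
  -- fraction-free independence
  have hind : ∀ a : Fin n → A, ∑ i, algebraMap F κ (φ (a i)) * β i = 0 → ∀ i, φ (a i) = 0 := by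
    intro a ha i
    have h1 : ρ (∑ i, algebraMap A (integralClosure A L) (a i) * bB i) = 0 := by
      rw [map_sum]
      simpa [hφ, β] using ha
    have h2 : (∑ i, algebraMap A (integralClosure A L) (a i) * bB i) ∈ RingHom.ker ρ := h1
    rw [hρ, Ideal.mem_span_singleton] at h2
    obtain ⟨x, hx⟩ := h2
    have hL : ∑ i, algebraMap A L (a i) * b i = algebraMap A L π * (x : L) := by
      have h3 := congrArg (fun z : integralClosure A L => (z : L)) hx
      simpa [bB] using h3
    have hL2 : ∑ i, algebraMap A L (d * a i) * b i = ∑ i, algebraMap A L (π * cA x i) * b i := by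
      calc ∑ i, algebraMap A L (d * a i) * b i
          = algebraMap A L d * ∑ i, algebraMap A L (a i) * b i := by
            rw [Finset.mul_sum]
            refine Finset.sum_congr rfl fun i _ => ?_
            rw [map_mul, mul_assoc]
        _ = algebraMap A L π * (algebraMap A L d * (x : L)) := by rw [hL]; ring
        _ = ∑ i, algebraMap A L (π * cA x i) * b i := by
            rw [hcA x, Finset.mul_sum]
            refine Finset.sum_congr rfl fun i _ => ?_
            rw [map_mul, mul_assoc]
    have h5 := hcoef _ _ hL2 i
    have h6 : π ∣ a i := (hπ.dvd_or_dvd ⟨_, h5⟩).resolve_left hπd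
    obtain ⟨a', ha'⟩ := h6
    apply (algebraMap F κ).injective
    rw [hφ, ha', map_mul, map_mul, hπker, zero_mul, map_zero]
  -- structure constants and the trace identity
  let a3 : Fin n → Fin n → Fin n → A := fun k i j => cA (bB k * bB j) i
  have ha3 : ∀ k i j, algebraMap A K (a3 k i j) =
      algebraMap A K d * Algebra.leftMulMatrix bas (b k) i j := by
    intro k i j
    rw [Algebra.leftMulMatrix_eq_repr_mul, hbas]
    exact hcAK (bB k * bB j) i
  have hT : ∀ k l, ∃ t : A, algebraMap A K t = Algebra.trace K L (b k * b l) := fun k l =>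
    exists_algebraMap_eq_trace ((hb k).mul (hb l))
  choose TA hTA using hT
  have htr : ∀ k l, ∑ i, ∑ j, a3 k i j * a3 l j i = d ^ 2 * TA k l := by
    intro k l
    apply hinjK
    rw [map_mul, map_pow, hTA, Algebra.trace_eq_matrix_trace bas, map_mul, Matrix.trace, map_sum,
      Finset.mul_sum]
    refine Finset.sum_congr rfl fun i _ => ?_
    rw [Matrix.diag_apply, Matrix.mul_apply, map_sum, Finset.mul_sum]
    refine Finset.sum_congr rfl fun j _ => ?_
    rw [map_mul, ha3, ha3]
    ring
  have hdetTA : (Matrix.of TA).det = d := by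
    apply hinjK
    rw [RingHom.map_det, ← hdet]
    congr 1
    ext k l
    simp [Algebra.traceMatrix_apply, Algebra.traceForm_apply, hTA]
  have hdetφ : (Matrix.of fun k l => ∑ i, ∑ j, φ (a3 k i j) * φ (a3 l j i)).det ≠ 0 := by
    have h1 : (Matrix.of fun k l => ∑ i, ∑ j, φ (a3 k i j) * φ (a3 l j i)) =
        (φ d) ^ 2 • φ.mapMatrix (Matrix.of TA) := by
      ext k l
      have h2 := congrArg φ (htr k l)
      simp only [map_sum, map_mul, map_pow] at h2
      simp [h2]
    rw [h1, Matrix.det_smul, ← RingHom.map_det, hdetTA]
    exact mul_ne_zero (pow_ne_zero _ (pow_ne_zero _ hφd)) hφd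
  refine ResidueLA.isSeparable_of_structure φ hfrac β d hφd hind (cA 1) ?_ a3 ?_ hdetφ (ρ c)
    (cA c) (hρc c)
  · have h1 := hρc 1
    rwa [map_one, mul_one] at h1
  · intro k j
    have h1 := hρc (bB k * bB j)
    rwa [map_mul] at h1

omit [IsDomain A] in
/-- **Unit discriminant at `π` ⇒ separable residue extension** (family indexed by
`Fin (finrank K L)`, the shape of `Model.UnramAt`). -/
theorem isSeparable_of_unramified
    (b : Fin (Module.finrank K L) → L) (hb : ∀ i, IsIntegral A (b i))
    (d π : A) (hdet : (Algebra.traceMatrix K b).det = algebraMap A K d) (hπ : Prime π)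
    (hπd : ¬ π ∣ d)
    (ρ : integralClosure A L →+* κ)
    (hρ : RingHom.ker ρ = Ideal.span {algebraMap A (integralClosure A L) π})
    (φ : A →+* F) (hφ : ∀ a, algebraMap F κ (φ a) = ρ (algebraMap A (integralClosure A L) a))
    (hfrac : ∀ f : F, ∃ a s : A, φ s ≠ 0 ∧ f * φ s = φ a)
    (c : integralClosure A L) : IsSeparable F (ρ c) :=
  isSeparable_of_unramified' rfl b hb d π hdet hπ hπd ρ hρ φ hφ hfrac c

end Fermat.Agent.S34.Sep.ResidueCore
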