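import Mathlib

/-!
# Program U, rows U.SSc.Sep.* — shared definition

`baseField O t ρ` : for a ring homomorphism `ρ` from the chart ring
`integralClosure (Algebra.adjoin O {t}) L` to a field `κ`, the subfield of `κ` generated by the
image of the base ring `O[t]` (the "residue field of the base", `k(t̄)` in the applications).
-/

set_option autoImplicit false

namespace Fermat.Agent.S34.Sep

/-- The subfield of `κ` generated by the image of the base ring `O[t]` under `ρ`. -/
abbrev baseField (O : Type*) {L : Type*} [CommRing O] [Field L] [Algebra O L] (t : L)
    {κ : Type*} [Field κ]
    (ρ : integralClosure (Algebra.adjoin O ({t} : Set L)) L →+* κ) : Subfield κ :=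
  Subfield.closure (Set.range (ρ.comp (algebraMap (Algebra.adjoin O ({t} : Set L))
    (integralClosure (Algebra.adjoin O ({t} : Set L)) L))))

end Fermat.Agent.S34.Sep
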