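import Mathlib
import Fermat.Agent.S30.Model.Main
import Fermat.Agent.S30.Model.GlueChart
import Fermat.Agent.S30.Model.ChartInst
import Fermat.Agent.S34.Sep.Defs
import Fermat.Agent.S34.Sep.ResidueCore

/-!
# Program U, row U.SSc.Sep.Gamma: `GaussUnram` ⇒ separable residue field

`O` a DVR with uniformiser `π`, `E = Frac O`, `L / E(t)` finite, `t` transcendental.  If the Gauss
valuation of `E(t)` attached to `π` is unramified in `L` (`Model.GaussUnram π t`) and
`ρ : integralClosure O[t] L →+* κ` is a ring homomorphism to a field with kernel `(π)`, then every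
`ρ c` is separable over the subfield `baseField O t ρ` of `κ` generated by `ρ (O[t])`.

This is the frozen statement `Sep.Skeleton.isSeparable_of_gaussUnram` of `Sep/Statement.lean`,
proved from `ResidueCore.isSeparable_of_unramified` (Cramer + trace form of the reduction).
-/

set_option autoImplicit false
set_option linter.unusedSectionVars false
set_option linter.style.haveILetI false

open Polynomial
open Fermat.Agent.S30.Model Fermat.Agent.S30.Model.GlueChart

namespace Fermat.Agent.S34.Sep

variable {O E L : Type*} [CommRing O] [IsDomain O] [IsDiscreteValuationRing O]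
  [Field E] [CharZero E] [Algebra O E] [IsFractionRing O E]
  [Field L] [Algebra E L] [Algebra O L] [IsScalarTower O E L]

/-- Every element of `baseField O t ρ` is a quotient of images of elements of `O[t]`. -/
theorem exists_frac_baseField (t : L) {κ : Type*} [Field κ]
    (ρ : integralClosure (Algebra.adjoin O ({t} : Set L)) L →+* κ) (f : κ)
    (hf : f ∈ baseField O t ρ) :
    ∃ a s : Algebra.adjoin O ({t} : Set L),
      ρ (algebraMap _ _ s) ≠ 0 ∧ f * ρ (algebraMap _ _ s) = ρ (algebraMap _ _ a) := by
  rw [Subfield.mem_closure_iff] at hf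
  obtain ⟨x, hx, y, hy, rfl⟩ := hf
  rw [← RingHom.coe_range, Subring.closure_eq] at hx hy
  obtain ⟨a, rfl⟩ := hx
  obtain ⟨s, rfl⟩ := hy
  by_cases hs : (ρ.comp (algebraMap (Algebra.adjoin O ({t} : Set L))
      (integralClosure (Algebra.adjoin O ({t} : Set L)) L))) s = 0
  · refine ⟨0, 1, ?_, ?_⟩
    · simp
    · rw [hs]
      simp
  · refine ⟨a, s, hs, ?_⟩
    exact div_mul_cancel₀ _ hs

/-- **(γ)** `GaussUnram π t` and `ker ρ = (π)` ⇒ the residue field is separable over the
residue field of the base. -/
theorem isSeparable_of_gaussUnram (π : O) (hπ : Irreducible π) (t : L) (ht : Transcendental E t)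
    [FiniteDimensional (IntermediateField.adjoin E {t}) L]
    (hi : GaussUnram (E := E) π t)
    {κ : Type*} [Field κ] (ρ : integralClosure (Algebra.adjoin O ({t} : Set L)) L →+* κ)
    (hρ : RingHom.ker ρ = Ideal.span {piElt (Algebra.adjoin O ({t} : Set L)) π})
    (c : integralClosure (Algebra.adjoin O ({t} : Set L)) L) :
    IsSeparable (baseField O t ρ) (ρ c) := by
  classical
  have htO : Transcendental O t := fun h =>
    ht (h.extendScalars (IsFractionRing.injective O E))
  have htK : t ∈ IntermediateField.adjoin E {t} := IntermediateField.mem_adjoin_simple_self E t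
  letI algAK : Algebra (Algebra.adjoin O {t}) (IntermediateField.adjoin E {t}) :=
    (ChartInst.incl O t (IntermediateField.adjoin E {t}) htK).toAlgebra
  have towerAKL : IsScalarTower (Algebra.adjoin O {t}) (IntermediateField.adjoin E {t}) L :=
    ChartInst.isScalarTower_incl O t _ htK
  have fracAK : IsFractionRing (Algebra.adjoin O {t}) (IntermediateField.adjoin E {t}) :=
    ChartInst.isFractionRing_incl O t _ htK le_rfl
  have icA : IsIntegrallyClosed (Algebra.adjoin O {t}) :=
    ChartInst.isIntegrallyClosed_adjoin O t htO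
  have hπA : Prime (algebraMap O (Algebra.adjoin O {t}) π) :=
    ChartInst.prime_algebraMap_adjoin O t htO hπ.prime
  obtain ⟨b, hb, d, hdmem, hdet, hnd⟩ := hi
  let g : Algebra.adjoin O ({t} : Set L) →+* κ := ρ.comp (algebraMap (Algebra.adjoin O ({t} : Set L))
    (integralClosure (Algebra.adjoin O ({t} : Set L)) L))
  let φ : Algebra.adjoin O ({t} : Set L) →+* baseField O t ρ :=
    g.codRestrict (baseField O t ρ).toSubring (fun a => Subfield.subset_closure ⟨a, rfl⟩)
  have hφ : ∀ a, algebraMap (baseField O t ρ) κ (φ a) = ρ (algebraMap _ _ a) := fun a => rfl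
  have hfrac : ∀ f : baseField O t ρ, ∃ a s, φ s ≠ 0 ∧ f * φ s = φ a := by
    rintro ⟨f, hf⟩
    obtain ⟨a, s, hs, hfs⟩ := exists_frac_baseField t ρ f hf
    refine ⟨a, s, fun h => hs (congrArg Subtype.val h), Subtype.ext hfs⟩
  have hρ' : RingHom.ker ρ = Ideal.span {algebraMap (Algebra.adjoin O ({t} : Set L))
      (integralClosure (Algebra.adjoin O ({t} : Set L)) L)
      (algebraMap O (Algebra.adjoin O ({t} : Set L)) π)} := by
    rw [hρ]
    rfl
  refine ResidueCore.isSeparable_of_unramified b hb ⟨d, hdmem⟩
    (algebraMap O (Algebra.adjoin O ({t} : Set L)) π) ?_ hπA ?_ ρ hρ' φ hφ hfrac c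
  · apply Subtype.ext
    rw [hdet]
    rfl
  · rintro ⟨c', hc'⟩
    refine hnd (c' : L) c'.2 ?_
    have h1 := congrArg (fun z : Algebra.adjoin O ({t} : Set L) => (z : L)) hc'
    simpa using h1

end Fermat.Agent.S34.Sep
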