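import Mathlib
import Fermat.Agent.S30.Model.Main
import Fermat.Agent.S30.Model.GlueChart
import Fermat.Agent.S34.Sep.Defs

/-!
# Program U, rows U.SSc.Sep.Alpha / U.SSc.Sep.Gamma — FROZEN STATEMENTS (skeleton, for review)

Vocabulary of `S30/Model/Main.lean` (`O` a DVR, `E = Frac O`, `L / E(t)` finite) and of
`S34/Nodal/Defs.lean` (the chart ring is `integralClosure (Algebra.adjoin O {t}) L`).

* `Skeleton.gaussUnram_of_two_primes` (**α**, row U.SSc.Sep.Alpha, helper254; final theorem
  `Sep.gaussUnram_of_two_primes` in `Sep/TwoPrimes.lean`):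
  two distinct primes `P₁ = ker ρ₁`, `P₂ = ker ρ₂` of the chart ring with `P₁ ⊓ P₂ = (π)`, both
  lying over `(π) ⊆ O[u]`, with residue fields separable over the residue field of the base
  ⟹ `GaussUnram π u`.   (The degree `[L : E(u)] = f₁ + f₂` is a by-product, not a hypothesis.)
* `Skeleton.isSeparable_of_gaussUnram` (**γ**, row U.SSc.Sep.Gamma; final theorem
  `Sep.isSeparable_of_gaussUnram` in `Sep/Residue.lean`):
  `GaussUnram π t` and `ker ρ = (π)` ⟹ every `ρ c` is separable over the residue field of the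
  base.

Use on the modular side (row U.SSc.Sep.Mod): `L = LE N K`, `N = l M`, `u = u* = j + W j`,
`ρ₁ = red` (q-expansion reduction), `ρ₂ = red ∘ W`; `red c = red c₀` with `c₀` of level `M`
(`TwoPrimes.exists_sub_algebraMap_mem`), `red c₀` is separable over `κ(j̄)` by (γ) at level `M`,
and `j̄` is a root of the separable polynomial `X ^ l + X - ū*` (Kronecker: `red (W j) = j̄ ^ l`).
-/

set_option autoImplicit false

open Polynomial
open Fermat.Agent.S30.Model Fermat.Agent.S30.Model.GlueChart

namespace Fermat.Agent.S34.Sep.Skeleton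

variable {O E L : Type*} [CommRing O] [IsDomain O] [IsDiscreteValuationRing O]
  [Field E] [CharZero E] [Algebra O E] [IsFractionRing O E]
  [Field L] [Algebra E L] [Algebra O L] [IsScalarTower O E L]

/-- **(α)** two primes over `π` with `P₁ ⊓ P₂ = (π)` and separable residue fields ⇒
`GaussUnram π u`. -/
theorem gaussUnram_of_two_primes (π : O) (hπ : Irreducible π) (u : L) (hu : Transcendental E u)
    [FiniteDimensional (IntermediateField.adjoin E {u}) L]
    (P₁ P₂ : Ideal (integralClosure (Algebra.adjoin O ({u} : Set L)) L)) (hne : P₁ ≠ P₂)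
    (hinf : P₁ ⊓ P₂ = Ideal.span {piElt (Algebra.adjoin O ({u} : Set L)) π})
    {κ₁ κ₂ : Type*} [Field κ₁] [Field κ₂]
    (ρ₁ : integralClosure (Algebra.adjoin O ({u} : Set L)) L →+* κ₁)
    (ρ₂ : integralClosure (Algebra.adjoin O ({u} : Set L)) L →+* κ₂)
    (hρ₁ : RingHom.ker ρ₁ = P₁) (hρ₂ : RingHom.ker ρ₂ = P₂)
    (hbase₁ : ∀ a : Algebra.adjoin O ({u} : Set L),
      ρ₁ (algebraMap _ _ a) = 0 → algebraMap O (Algebra.adjoin O ({u} : Set L)) π ∣ a)
    (hbase₂ : ∀ a : Algebra.adjoin O ({u} : Set L),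
      ρ₂ (algebraMap _ _ a) = 0 → algebraMap O (Algebra.adjoin O ({u} : Set L)) π ∣ a)
    (hsep₁ : ∀ c, IsSeparable (baseField O u ρ₁) (ρ₁ c))
    (hsep₂ : ∀ c, IsSeparable (baseField O u ρ₂) (ρ₂ c)) :
    GaussUnram (E := E) π u := by
  sorry

/-- **(γ)** `GaussUnram π t` and `ker ρ = (π)` ⇒ the residue field is separable over the
residue field of the base. -/
theorem isSeparable_of_gaussUnram (π : O) (hπ : Irreducible π) (t : L) (ht : Transcendental E t)
    [FiniteDimensional (IntermediateField.adjoin E {t}) L]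
    (hi : GaussUnram (E := E) π t)
    {κ : Type*} [Field κ] (ρ : integralClosure (Algebra.adjoin O ({t} : Set L)) L →+* κ)
    (hρ : RingHom.ker ρ = Ideal.span {piElt (Algebra.adjoin O ({t} : Set L)) π})
    (c : integralClosure (Algebra.adjoin O ({t} : Set L)) L) :
    IsSeparable (baseField O t ρ) (ρ c) := by
  sorry

end Fermat.Agent.S34.Sep.Skeleton
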